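import Mathlib
import Fermat.Agent.LT.H556.A0
import Fermat.Agent.LT.H129.HeckeLevel
import Fermat.Agent.LT.H129.Cartan

/-!
# Row LT, tower T2, sub-leaf T2.07.04 (helper756): the local algebra

OFF-MAIN.  On `LT/H556/A0.lean` (helper556) and the local library of helper129
(`LT/H129/{Cartan, HeckeLevel}.lean` and their imports), byte-identical copies.

* `hecke_doubleCoset756` : over `K_v`, an integral matrix whose determinant is a uniformiser lies
  in `GL₂(𝒪_v) diag(1, ϖ) GL₂(𝒪_v)`;
* `IsHeckeAt756 v g` : `g ∈ GL₂(𝔸_K)` is supported at `v`, integral at `v`, with determinant a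
  uniformiser at `v` (the elements of the coset systems of A0);
* `exists_maxCpt_mul756` : two such elements differ by elements of `GL₂(𝒪_v)` on both sides;
* `isHeckeAt_inv_mul756` : if `h` is such an element and `z` a scalar uniformiser at `v`, then
  `h⁻¹ z` is such an element;
* `biInv_eq756` : a function on `GL₂(𝔸_K)` which is left and right invariant under `GL₂(𝒪_v)`
  takes the same value at `h` and at `h⁻¹ z`.
-/

set_option autoImplicit false

open IsDedekindDomain NumberField IsDedekindDomain.HeightOneSpectrum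
open Fermat.Agent.LT.H556.A0 Fermat.Agent.LT.H129

noncomputable section

namespace Fermat.Agent.LT.T2.H756

variable {K : Type} [Field K] [NumberField K] (v : HeightOneSpectrum (𝓞 K))

/-! ## 1. Local algebra over `K_v` -/

theorem valued_mul_eq_one756 {a b : v.adicCompletion K} (ha : Valued.v a ≤ 1)
    (hb : Valued.v b ≤ 1) (hab : a * b = 1) : Valued.v a = 1 := by
  have h1 : Valued.v a * Valued.v b = 1 := by rw [← map_mul, hab, map_one]
  have h2 : Valued.v a * Valued.v b ≤ Valued.v a * 1 := mul_le_mul' le_rfl hb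
  rw [h1, mul_one] at h2
  exact le_antisymm ha h2

/-- The determinant of an element of `GL₂(𝒪_v)` is a unit. -/
theorem valued_det_maxCpt756 {k : GL (Fin 2) (v.adicCompletion K)}
    (hk : IsMaxCpt129 (v.adicCompletionIntegers K) k) :
    Valued.v (k : Matrix (Fin 2) (Fin 2) (v.adicCompletion K)).det = 1 := by
  have h1 : Valued.v (k : Matrix (Fin 2) (Fin 2) (v.adicCompletion K)).det ≤ 1 :=
    (mem_adicCompletionIntegers _ _ _).mp (det_mem_of_isInt129 hk.1)
  have h2 : Valued.v ((k⁻¹ : GL (Fin 2) (v.adicCompletion K)) :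
      Matrix (Fin 2) (Fin 2) (v.adicCompletion K)).det ≤ 1 :=
    (mem_adicCompletionIntegers _ _ _).mp (det_mem_of_isInt129 hk.2)
  have h3 : (k : Matrix (Fin 2) (Fin 2) (v.adicCompletion K)).det *
      ((k⁻¹ : GL (Fin 2) (v.adicCompletion K)) :
        Matrix (Fin 2) (Fin 2) (v.adicCompletion K)).det = 1 := by
    rw [← Matrix.det_mul, ← Matrix.GeneralLinearGroup.coe_mul, mul_inv_cancel]
    simp
  exact valued_mul_eq_one756 v h1 h2 h3

theorem coe_diag129_756 {F : Type*} [Field F] (x y : F) (hx : x ≠ 0) (hy : y ≠ 0) :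
    ((diag129 x y hx hy : GL (Fin 2) F) : Matrix (Fin 2) (Fin 2) F) = !![x, 0; 0, y] := rfl

theorem diag129_mul756 {F : Type*} [Field F] (x y x' y' : F) (hx : x ≠ 0) (hy : y ≠ 0)
    (hx' : x' ≠ 0) (hy' : y' ≠ 0) :
    diag129 x y hx hy * diag129 x' y' hx' hy'
      = diag129 (x * x') (y * y') (mul_ne_zero hx hx') (mul_ne_zero hy hy') := by
  apply ext_mat129
  rw [Matrix.GeneralLinearGroup.coe_mul, coe_diag129_756, coe_diag129_756, coe_diag129_756]
  ext i j
  fin_cases i <;> fin_cases j <;> simp [Matrix.mul_apply, Fin.sum_univ_two]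

theorem diag129_congr756 {F : Type*} [Field F] {x y x' y' : F} (hx : x ≠ 0) (hy : y ≠ 0)
    (hx' : x' ≠ 0) (hy' : y' ≠ 0) (ex : x = x') (ey : y = y') :
    diag129 x y hx hy = diag129 x' y' hx' hy' := by
  subst ex; subst ey; rfl

/-- A diagonal matrix with unit entries lies in `GL₂(𝒪_v)`. -/
theorem isMaxCpt_diag_unit756 {x y : v.adicCompletion K} (hx : x ≠ 0) (hy : y ≠ 0)
    (hvx : Valued.v x = 1) (hvy : Valued.v y = 1) :
    IsMaxCpt129 (v.adicCompletionIntegers K) (diag129 x y hx hy) := by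
  have hint : IsInt129 (v.adicCompletionIntegers K) (diag129 x y hx hy) := by
    intro i j
    rw [coe_diag129_756]
    fin_cases i <;> fin_cases j
    · simpa [mem_adicCompletionIntegers] using hvx.le
    · simp
    · simp
    · simpa [mem_adicCompletionIntegers] using hvy.le
  refine ⟨hint, isInt129_inv_of_det hint ?_⟩
  rw [coe_diag129_756, Matrix.det_fin_two_of, mul_zero, sub_zero, mem_adicCompletionIntegers,
    map_inv₀, map_mul, hvx, hvy, mul_one, inv_one]

/-- **The double coset of the Hecke operator**: an integral matrix whose determinant is a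
uniformiser lies in `GL₂(𝒪_v) diag(1, ϖ) GL₂(𝒪_v)`. -/
theorem hecke_doubleCoset756 {g : GL (Fin 2) (v.adicCompletion K)}
    (hg : IsInt129 (v.adicCompletionIntegers K) g)
    (hdet : Valued.v (g : Matrix (Fin 2) (Fin 2) (v.adicCompletion K)).det
      = WithZero.exp (-1 : ℤ))
    {ϖ : v.adicCompletion K} (hϖ : Valued.v ϖ = WithZero.exp (-1 : ℤ)) :
    ∃ k₁ k₂ : GL (Fin 2) (v.adicCompletion K),
      IsMaxCpt129 (v.adicCompletionIntegers K) k₁ ∧
      IsMaxCpt129 (v.adicCompletionIntegers K) k₂ ∧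
      g = k₁ * diag129 1 ϖ one_ne_zero (unif_ne_zero129 v hϖ) * k₂ := by
  obtain ⟨k₁, k₂, x, y, hx, hy, h1, h2, hxy, hgeq⟩ := cartan129 (v.adicCompletionIntegers K) g
  have hϖ0 : ϖ ≠ 0 := unif_ne_zero129 v hϖ
  -- the diagonal part is integral
  have hD : diag129 x y hx hy = k₁⁻¹ * g * k₂⁻¹ := by rw [hgeq]; group
  have hDint : IsInt129 (v.adicCompletionIntegers K) (diag129 x y hx hy) := by
    rw [hD]
    exact isInt129_mul (isInt129_mul h1.2 hg) h2.2
  have hvx : Valued.v x ≤ 1 := by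
    have := hDint 0 0
    rw [coe_diag129_756] at this
    simpa [mem_adicCompletionIntegers] using this
  have hvy : Valued.v y ≤ 1 := by
    have := hDint 1 1
    rw [coe_diag129_756] at this
    simpa [mem_adicCompletionIntegers] using this
  have hvx0 : Valued.v x ≠ 0 := by rw [ne_eq, map_eq_zero]; exact hx
  have hvyx : Valued.v y ≤ Valued.v x := by
    have h := (mem_adicCompletionIntegers _ _ _).mp hxy
    rw [map_div₀] at h
    exact (div_le_one₀ (zero_lt_iff.mpr hvx0)).mp h
  -- the determinant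
  have hdet' : Valued.v x * Valued.v y = WithZero.exp (-1 : ℤ) := by
    have e : (g : Matrix (Fin 2) (Fin 2) (v.adicCompletion K)).det
        = (k₁ : Matrix (Fin 2) (Fin 2) (v.adicCompletion K)).det * (x * y)
          * (k₂ : Matrix (Fin 2) (Fin 2) (v.adicCompletion K)).det := by
      rw [hgeq, Matrix.GeneralLinearGroup.coe_mul, Matrix.GeneralLinearGroup.coe_mul,
        Matrix.det_mul, Matrix.det_mul, coe_diag129_756, Matrix.det_fin_two_of]
      ring
    rw [e, map_mul, map_mul, map_mul, valued_det_maxCpt756 v h1, valued_det_maxCpt756 v h2,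
      one_mul, mul_one] at hdet
    exact hdet
  have hx1 : Valued.v x = 1 := by
    by_contra hne
    have hlt : Valued.v x < 1 := lt_of_le_of_ne hvx hne
    have h3 : Valued.v x ≤ WithZero.exp (-1 : ℤ) := withZero_le_exp_neg_one129 hlt
    have h4 : Valued.v y ≤ WithZero.exp (-1 : ℤ) := hvyx.trans h3
    have h5 : Valued.v x * Valued.v y ≤ WithZero.exp (-1 : ℤ) * WithZero.exp (-1 : ℤ) :=
      mul_le_mul' h3 h4
    rw [hdet', ← WithZero.exp_add, WithZero.exp_le_exp] at h5
    omega
  have hy1 : Valued.v y = WithZero.exp (-1 : ℤ) := by rw [hx1, one_mul] at hdet'; exact hdet'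
  have hyϖ0 : y / ϖ ≠ 0 := div_ne_zero hy hϖ0
  have hyϖ : Valued.v (y / ϖ) = 1 := by
    rw [map_div₀, hy1, hϖ]
    exact div_self WithZero.exp_ne_zero
  refine ⟨k₁ * diag129 x (y / ϖ) hx hyϖ0, k₂,
    isMaxCpt129_mul h1 (isMaxCpt_diag_unit756 v hx hyϖ0 hx1 hyϖ), h2, ?_⟩
  have e : diag129 x y hx hy
      = diag129 x (y / ϖ) hx hyϖ0 * diag129 1 ϖ one_ne_zero hϖ0 := by
    rw [diag129_mul756]
    exact diag129_congr756 _ _ _ _ (mul_one x).symm (div_mul_cancel₀ y hϖ0).symm
  rw [hgeq, e]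
  group

/-! ## 2. The elements of the Hecke coset systems -/

/-- `g ∈ GL₂(𝔸_K)` is supported at `v`, integral at `v`, with determinant a uniformiser at `v`. -/
def IsHeckeAt756 (v : HeightOneSpectrum (𝓞 K)) (g : G K) : Prop :=
  IsLocalAtFin v g ∧ IsIntegralAt v g ∧
    Valued.v (finComp v g).det = WithZero.exp (-1 : ℤ)

variable {v}

theorem isHeckeAt_of_mem756 {H : Finset (G K)} (hH : IsHeckeCosetSystem v H) {h : G K}
    (hh : h ∈ H) : IsHeckeAt756 v h :=
  hH.2.1 h hh

theorem isLocalMaxCptAt_locFin756 {k : GL (Fin 2) (v.adicCompletion K)}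
    (hk : IsMaxCpt129 (v.adicCompletionIntegers K) k) :
    IsLocalMaxCptAt129 v (locFin129 v k) := by
  refine ⟨isLocalAtFin_locFin129 v k, ?_, ?_⟩
  · rw [← isInt129_finCompHom_iff, finCompHom129_locFin129]
    exact hk.1
  · rw [← map_inv, ← isInt129_finCompHom_iff, finCompHom129_locFin129]
    exact hk.2

/-- Two Hecke elements at `v` differ by elements of `GL₂(𝒪_v)` on both sides. -/
theorem exists_maxCpt_mul756 {g g' : G K} (hg : IsHeckeAt756 v g) (hg' : IsHeckeAt756 v g') :
    ∃ u₁ u₂ : G K, IsLocalMaxCptAt129 v u₁ ∧ IsLocalMaxCptAt129 v u₂ ∧ g' = u₁ * g * u₂ := by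
  obtain ⟨ϖ, hϖ⟩ := exists_unif129 (K := K) v
  obtain ⟨k₁, k₂, h1, h2, e⟩ := hecke_doubleCoset756 v (g := finCompHom129 v g)
    ((isInt129_finCompHom_iff v g).mpr hg.2.1) hg.2.2 hϖ
  obtain ⟨k₁', k₂', h1', h2', e'⟩ := hecke_doubleCoset756 v (g := finCompHom129 v g')
    ((isInt129_finCompHom_iff v g').mpr hg'.2.1) hg'.2.2 hϖ
  refine ⟨locFin129 v (k₁' * k₁⁻¹), locFin129 v (k₂⁻¹ * k₂'),
    isLocalMaxCptAt_locFin756 (isMaxCpt129_mul h1' (isMaxCpt129_inv h1)),
    isLocalMaxCptAt_locFin756 (isMaxCpt129_mul (isMaxCpt129_inv h2) h2'), ?_⟩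
  have eg : g = locFin129 v (finCompHom129 v g) := eq_locFin129_of_isLocalAtFin hg.1
  have eg' : g' = locFin129 v (finCompHom129 v g') := eq_locFin129_of_isLocalAtFin hg'.1
  rw [eg', eg, ← map_mul, ← map_mul]
  congr 1
  rw [e', e]
  group

/-- If `h` is a Hecke element at `v` and `z` a scalar uniformiser at `v`, then `h⁻¹ z` is a
Hecke element at `v`. -/
theorem isHeckeAt_inv_mul756 {h z : G K} (hh : IsHeckeAt756 v h)
    (hz : IsScalarUniformizerAt v z) : IsHeckeAt756 v (h⁻¹ * z) := by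
  obtain ⟨hzloc, c, hc, hzc⟩ := hz
  obtain ⟨hloc, hint, hdet⟩ := hh
  have hz' : ((finCompHom129 v z : GL (Fin 2) (v.adicCompletion K)) :
      Matrix (Fin 2) (Fin 2) (v.adicCompletion K)) = Matrix.diagonal (fun _ => c) := hzc
  have hdet' : Valued.v ((finCompHom129 v h : GL (Fin 2) (v.adicCompletion K)) :
      Matrix (Fin 2) (Fin 2) (v.adicCompletion K)).det = WithZero.exp (-1 : ℤ) := hdet
  have hint' : IsInt129 (v.adicCompletionIntegers K) (finCompHom129 v h) :=
    (isInt129_finCompHom_iff v h).mpr hint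
  have hcd : Valued.v (c / ((finCompHom129 v h : GL (Fin 2) (v.adicCompletion K)) :
      Matrix (Fin 2) (Fin 2) (v.adicCompletion K)).det) = 1 := by
    rw [map_div₀, hc, hdet']
    exact div_self WithZero.exp_ne_zero
  refine ⟨isLocalAtFin_mul129 (isLocalAtFin_inv129 hloc) hzloc, ?_, ?_⟩
  · rw [← isInt129_finCompHom_iff, map_mul, map_inv]
    intro i j
    rw [inv_mul_apply129, hz', Matrix.mul_diagonal, mul_div_assoc, mem_adicCompletionIntegers,
      map_mul, hcd, mul_one, Matrix.adjugate_fin_two]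
    fin_cases i <;> fin_cases j
    · simpa [mem_adicCompletionIntegers] using hint' 1 1
    · simpa [mem_adicCompletionIntegers] using hint' 0 1
    · simpa [mem_adicCompletionIntegers] using hint' 1 0
    · simpa [mem_adicCompletionIntegers] using hint' 0 0
  · have e : finComp v (h⁻¹ * z)
        = ((finCompHom129 v h)⁻¹ * finCompHom129 v z : GL (Fin 2) (v.adicCompletion K)) := by
      rw [← map_inv, ← map_mul]; rfl
    rw [e, Matrix.GeneralLinearGroup.coe_mul, Matrix.det_mul, hz', Matrix.det_diagonal,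
      Fin.prod_univ_two, Matrix.coe_units_inv, Matrix.det_nonsing_inv, Ring.inverse_eq_inv',
      map_mul, map_inv₀, map_mul, hc, hdet', ← WithZero.exp_add, ← WithZero.exp_neg,
      ← WithZero.exp_add]
    norm_num

/-- **A bi-`GL₂(𝒪_v)`-invariant function takes the same value at `h` and at `h⁻¹ z`.** -/
theorem biInv_eq756 {M : Type*} (B : G K → M)
    (hl : ∀ u : G K, IsLocalMaxCptAt129 v u → ∀ g : G K, B (u * g) = B g)
    (hr : ∀ u : G K, IsLocalMaxCptAt129 v u → ∀ g : G K, B (g * u) = B g)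
    {h z : G K} (hh : IsHeckeAt756 v h) (hz : IsScalarUniformizerAt v z) :
    B (h⁻¹ * z) = B h := by
  obtain ⟨u₁, u₂, h1, h2, e⟩ := exists_maxCpt_mul756 hh (isHeckeAt_inv_mul756 hh hz)
  rw [e, hr u₂ h2, hl u₁ h1]

end Fermat.Agent.LT.T2.H756

end
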