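import Mathlib
import Fermat.Agent.LT.H556.A0
import Fermat.Agent.LT.T1.Spec
import Fermat.Agent.LT.T2.Spec
import Fermat.Agent.LT.T2.H429.OpsSpec
import Fermat.Agent.LT.T2.H756.HeckeLocal

/-!
# Row LT, tower T2, sub-leaf T2.07.04 `SubHeckeAdj429` (helper756): `T_v* = S_v⁻¹ T_v`

OFF-MAIN.  Sub-spec: `LT/T2/H429/OpsSpec.lean` (helper429).  Local algebra: `HeckeLocal.lean`.

* `cusp_diagPos756` : a cusp function is right invariant under `Z⁺` (`T2.IsDiagPosScalar`): a
  diagonal positive scalar is a product of positive scalars at the single infinite places;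
  `diagPos_central756` : the elements of `Z⁺` are central;
* `pairAt756 F φ ψ a b = ∫_D φ(g a) conj ψ(g b) dμ(g)`; `pairAt_transl756` : it is invariant under
  `(a, b) ↦ (h a, h b)` (this is the KEY LEMMA `SubTransl429` of the sub-spec, a HYPOTHESIS here);
* `heckeAdj_core756` : `⟨T_H φ, ψ⟩ = ⟨φ, S_z⁻¹ T_H ψ⟩` for cusp functions of level prime to `v`;
* `subHeckeAdj_of_transl756 : SubTransl429 K → SubHeckeAdj429 K`.

Proof of the core: `B(h) = ∫_D φ(g h) conj ψ(g)` is left and right invariant under `GL₂(𝒪_v)`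
(KEY LEMMA and the invariance of `φ`, `ψ` under `U(𝔫) ⊇ GL₂(𝒪_v)`), the left side is
`∑_h B(h)`, the right side is `∑_h B(h⁻¹ z)` (KEY LEMMA), and `h`, `h⁻¹ z` lie in the same
double coset `GL₂(𝒪_v) diag(1, ϖ) GL₂(𝒪_v)` (`biInv_eq756`).
-/

set_option autoImplicit false

open IsDedekindDomain NumberField MeasureTheory
open Fermat.Agent.LT.H556.A0 Fermat.Agent.LT.H129 Fermat.Agent.LT.T2

noncomputable section

namespace Fermat.Agent.LT.T2.H756

variable {K : Type} [Field K] [NumberField K]

attribute [local instance] Fermat.Agent.LT.T2.borelG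

open scoped Classical

/-! ## 1. The positive scalars at the infinite places -/

/-- The adele with component `x w` at the infinite places `w ∈ S` and `1` elsewhere. -/
def archAdele756 (x : InfiniteAdeleRing K) (S : Finset (InfinitePlace K)) : Adl K :=
  ((fun w => if w ∈ S then x w else 1 : InfiniteAdeleRing K), 1)

theorem archAdele756_fst (x : InfiniteAdeleRing K) (S : Finset (InfinitePlace K))
    (w : InfinitePlace K) : (archAdele756 x S).1 w = if w ∈ S then x w else 1 := rfl

theorem archAdele756_snd (x : InfiniteAdeleRing K) (S : Finset (InfinitePlace K)) :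
    (archAdele756 x S).2 = 1 := rfl

theorem archAdele756_mul (x y : InfiniteAdeleRing K) (S : Finset (InfinitePlace K)) :
    archAdele756 x S * archAdele756 y S = archAdele756 (fun w => x w * y w) S := by
  refine Prod.ext (funext fun w => ?_) ?_
  · show (archAdele756 x S).1 w * (archAdele756 y S).1 w = _
    rw [archAdele756_fst, archAdele756_fst, archAdele756_fst]
    split_ifs
    · rfl
    · rw [mul_one]
  · show (archAdele756 x S).2 * (archAdele756 y S).2 = _
    rw [archAdele756_snd, archAdele756_snd, archAdele756_snd, mul_one]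

theorem archAdele756_eq_one (x : InfiniteAdeleRing K) (S : Finset (InfinitePlace K))
    (h : ∀ w ∈ S, x w = 1) : archAdele756 x S = 1 := by
  refine Prod.ext (funext fun w => ?_) rfl
  show (archAdele756 x S).1 w = 1
  rw [archAdele756_fst]
  split_ifs with hw
  · exact h w hw
  · rfl

theorem archAdele756_insert (x : InfiniteAdeleRing K) {w : InfinitePlace K}
    {S : Finset (InfinitePlace K)} (hw : w ∉ S) :
    archAdele756 x (insert w S) = archAdele756 x S * archAdele756 x {w} := by
  refine Prod.ext (funext fun w' => ?_) ?_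
  · show (archAdele756 x (insert w S)).1 w'
      = (archAdele756 x S).1 w' * (archAdele756 x {w}).1 w'
    rw [archAdele756_fst, archAdele756_fst, archAdele756_fst]
    by_cases h : w' = w
    · subst h
      rw [if_pos (Finset.mem_insert_self _ _), if_neg hw, if_pos (Finset.mem_singleton_self _),
        one_mul]
    · have h1 : w' ∉ ({w} : Finset (InfinitePlace K)) := by
        rw [Finset.mem_singleton]; exact h
      rw [if_neg h1, mul_one]
      by_cases h2 : w' ∈ S
      · rw [if_pos h2, if_pos (Finset.mem_insert_of_mem h2)]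
      · rw [if_neg h2, if_neg]
        rw [Finset.mem_insert]
        exact fun h3 => h3.elim h h2
  · show (archAdele756 x (insert w S)).2 = (archAdele756 x S).2 * (archAdele756 x {w}).2
    rw [archAdele756_snd, archAdele756_snd, archAdele756_snd, mul_one]

/-- The idele with component `x w` at the infinite places `w ∈ S` and `1` elsewhere. -/
def archIdele756 (x : InfiniteAdeleRing K) (hx : ∀ w, x w ≠ 0) (S : Finset (InfinitePlace K)) :
    (Adl K)ˣ where
  val := archAdele756 x S
  inv := archAdele756 (fun w => (x w)⁻¹) S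
  val_inv := by
    rw [archAdele756_mul]
    exact archAdele756_eq_one _ _ fun w _ => mul_inv_cancel₀ (hx w)
  inv_val := by
    rw [archAdele756_mul]
    exact archAdele756_eq_one _ _ fun w _ => inv_mul_cancel₀ (hx w)

/-- The scalar matrix of `archIdele756`. -/
def archScalar756 (x : InfiniteAdeleRing K) (hx : ∀ w, x w ≠ 0)
    (S : Finset (InfinitePlace K)) : G K :=
  Units.map ((Matrix.scalar (Fin 2) : Adl K →+* Matrix (Fin 2) (Fin 2) (Adl K)) :
    Adl K →* Matrix (Fin 2) (Fin 2) (Adl K)) (archIdele756 x hx S)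

theorem coe_archScalar756 (x : InfiniteAdeleRing K) (hx : ∀ w, x w ≠ 0)
    (S : Finset (InfinitePlace K)) :
    ((archScalar756 x hx S : G K) : Matrix (Fin 2) (Fin 2) (Adl K))
      = Matrix.diagonal (fun _ => archAdele756 x S) := rfl

theorem archScalar756_empty (x : InfiniteAdeleRing K) (hx : ∀ w, x w ≠ 0) :
    archScalar756 x hx ∅ = 1 := by
  have : archIdele756 x hx ∅ = 1 :=
    Units.ext (archAdele756_eq_one x ∅ fun w hw => absurd hw (Finset.notMem_empty w))
  unfold archScalar756
  rw [this, map_one]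

theorem archScalar756_insert (x : InfiniteAdeleRing K) (hx : ∀ w, x w ≠ 0)
    {w : InfinitePlace K} {S : Finset (InfinitePlace K)} (hw : w ∉ S) :
    archScalar756 x hx (insert w S) = archScalar756 x hx S * archScalar756 x hx {w} := by
  have : archIdele756 x hx (insert w S) = archIdele756 x hx S * archIdele756 x hx {w} :=
    Units.ext (archAdele756_insert x hw)
  unfold archScalar756
  rw [this, map_mul]

theorem archScalar756_apply (x : InfiniteAdeleRing K) (hx : ∀ w, x w ≠ 0)
    (S : Finset (InfinitePlace K)) (i j : Fin 2) :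
    ((archScalar756 x hx S : G K) : Matrix (Fin 2) (Fin 2) (Adl K)) i j
      = if i = j then archAdele756 x S else 0 := by
  rw [coe_archScalar756, Matrix.diagonal_apply]

theorem infComp_archScalar756 (x : InfiniteAdeleRing K) (hx : ∀ w, x w ≠ 0)
    (S : Finset (InfinitePlace K)) (w : InfinitePlace K) :
    infComp w (archScalar756 x hx S) = Matrix.diagonal (fun _ =>
      InfinitePlace.Completion.extensionEmbedding w (if w ∈ S then x w else 1)) := by
  ext i j
  unfold infComp
  rw [archScalar756_apply, Matrix.diagonal_apply]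
  by_cases hij : i = j
  · rw [if_pos hij, if_pos hij, archAdele756_fst]
  · rw [if_neg hij, if_neg hij]
    exact map_zero _

theorem trivAtInf_archScalar756 (x : InfiniteAdeleRing K) (hx : ∀ w, x w ≠ 0)
    {S : Finset (InfinitePlace K)} {w : InfinitePlace K} (hw : w ∉ S) :
    TrivAtInf w (archScalar756 x hx S) := by
  intro i j
  rw [archScalar756_apply, Matrix.one_apply]
  by_cases hij : i = j
  · rw [if_pos hij, if_pos hij, archAdele756_fst, if_neg hw]
  · rw [if_neg hij, if_neg hij]
    rfl

theorem trivAtFin_archScalar756 (x : InfiniteAdeleRing K) (hx : ∀ w, x w ≠ 0)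
    (S : Finset (InfinitePlace K)) (v : HeightOneSpectrum (𝓞 K)) :
    TrivAtFin v (archScalar756 x hx S) := by
  unfold TrivAtFin finComp
  ext i j
  rw [archScalar756_apply, Matrix.one_apply]
  by_cases hij : i = j
  · rw [if_pos hij, if_pos hij, archAdele756_snd]
    rfl
  · rw [if_neg hij, if_neg hij]
    rfl

theorem isArchPosScalar_single756 (x : InfiniteAdeleRing K) (hx : ∀ w, x w ≠ 0)
    (w : InfinitePlace K) {r : ℝ} (hr : 0 < r)
    (hxw : InfinitePlace.Completion.extensionEmbedding w (x w) = (r : ℂ)) :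
    IsArchPosScalar w (archScalar756 x hx {w}) := by
  refine ⟨⟨fun w' hw' => trivAtInf_archScalar756 x hx ?_,
    fun v => trivAtFin_archScalar756 x hx _ v⟩, r, hr, ?_⟩
  · rw [Finset.mem_singleton]; exact hw'
  · rw [infComp_archScalar756, if_pos (Finset.mem_singleton_self _), hxw]

/-- The elements `archScalar756` are central. -/
theorem archScalar756_central (x : InfiniteAdeleRing K) (hx : ∀ w, x w ≠ 0)
    (S : Finset (InfinitePlace K)) (g : G K) :
    g * archScalar756 x hx S = archScalar756 x hx S * g := by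
  apply Units.ext
  rw [Units.val_mul, Units.val_mul, coe_archScalar756]
  ext i j
  rw [Matrix.mul_diagonal, Matrix.diagonal_mul, mul_comm]

/-- An element of `Z⁺` is an `archScalar756` over all infinite places. -/
theorem exists_archScalar756 {z : G K} (hz : IsDiagPosScalar z) :
    ∃ (x : InfiniteAdeleRing K) (hx : ∀ w, x w ≠ 0), z = archScalar756 x hx Finset.univ ∧
      ∃ r : ℝ, 0 < r ∧ ∀ w, InfinitePlace.Completion.extensionEmbedding w (x w) = (r : ℂ) := by
  obtain ⟨hfin, r, hr, hinf⟩ := hz
  have hent : ∀ (w : InfinitePlace K) (i j : Fin 2),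
      InfinitePlace.Completion.extensionEmbedding w
        (((z : Matrix (Fin 2) (Fin 2) (Adl K)) i j).1 w)
        = (Matrix.diagonal (fun _ : Fin 2 => (r : ℂ))) i j :=
    fun w i j => congrFun (congrFun (hinf w) i) j
  have hfinent : ∀ (v : HeightOneSpectrum (𝓞 K)) (i j : Fin 2),
      ((z : Matrix (Fin 2) (Fin 2) (Adl K)) i j).2 v
        = (1 : Matrix (Fin 2) (Fin 2) (v.adicCompletion K)) i j :=
    fun v i j => congrFun (congrFun (hfin v) i) j
  have hr0 : (r : ℂ) ≠ 0 := by exact_mod_cast hr.ne'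
  set x : InfiniteAdeleRing K := fun w => ((z : Matrix (Fin 2) (Fin 2) (Adl K)) 0 0).1 w with hxdef
  have hxr : ∀ w, InfinitePlace.Completion.extensionEmbedding w (x w) = (r : ℂ) := by
    intro w
    have := hent w 0 0
    rwa [Matrix.diagonal_apply_eq] at this
  have hx : ∀ w, x w ≠ 0 := by
    intro w h0
    have := hxr w
    rw [h0, map_zero] at this
    exact hr0 this.symm
  refine ⟨x, hx, ?_, r, hr, hxr⟩
  apply Units.ext
  ext i j : 1
  rw [archScalar756_apply]
  apply adele_ext129
  · intro w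
    by_cases hij : i = j
    · rw [if_pos hij, archAdele756_fst, if_pos (Finset.mem_univ _)]
      apply (InfinitePlace.Completion.extensionEmbedding w).injective
      rw [hxr w, hent w i j, hij, Matrix.diagonal_apply_eq]
    · rw [if_neg hij]
      apply (InfinitePlace.Completion.extensionEmbedding w).injective
      rw [hent w i j, Matrix.diagonal_apply_ne _ hij]
      exact (map_zero _).symm
  · intro v
    rw [hfinent v i j, Matrix.one_apply]
    by_cases hij : i = j
    · rw [if_pos hij, if_pos hij, archAdele756_snd]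
      rfl
    · rw [if_neg hij, if_neg hij]
      rfl

/-- The elements of `Z⁺` are central. -/
theorem diagPos_central756 {z : G K} (hz : IsDiagPosScalar z) (g : G K) : g * z = z * g := by
  obtain ⟨x, hx, rfl, -⟩ := exists_archScalar756 hz
  exact archScalar756_central x hx _ g

/-- A cusp function is right invariant under `Z⁺`. -/
theorem cusp_diagPos756 {𝔫 : Ideal (𝓞 K)} {φ : G K → ℂ} (hφ : IsCuspFn 𝔫 φ) {z : G K}
    (hz : IsDiagPosScalar z) (g : G K) : φ (g * z) = φ g := by
  obtain ⟨x, hx, rfl, r, hr, hxr⟩ := exists_archScalar756 hz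
  have key : ∀ (S : Finset (InfinitePlace K)) (g : G K),
      φ (g * archScalar756 x hx S) = φ g := by
    intro S
    induction S using Finset.induction_on with
    | empty =>
      intro g
      rw [archScalar756_empty, mul_one]
    | insert w S hw ih =>
      intro g
      rw [archScalar756_insert x hx hw, ← mul_assoc,
        hφ.arch_scalar w _ (isArchPosScalar_single756 x hx w hr (hxr w)), ih]
  exact key _ g

/-! ## 2. The Petersson integrals `∫_D φ(g a) conj ψ(g b) dμ(g)` -/

theorem borelSpaceG756 : BorelSpace (G K) := ⟨rfl⟩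

/-- `∫_D φ(g a) conj ψ(g b) dμ(g)`. -/
def pairAt756 (F : Frame K) (φ ψ : G K → ℂ) (a b : G K) : ℂ :=
  ∫ g in F.D, φ (g * a) * (starRingEnd ℂ) (ψ (g * b)) ∂F.μ

theorem integrableOn_pairAt756 (F : Frame K) {φ ψ : G K → ℂ} (hφ : Continuous φ)
    (hψ : Continuous ψ) (bφ : ∃ C : ℝ, ∀ g : G K, ‖φ g‖ ≤ C)
    (bψ : ∃ C : ℝ, ∀ g : G K, ‖ψ g‖ ≤ C) (a b : G K) :
    IntegrableOn (fun g => φ (g * a) * (starRingEnd ℂ) (ψ (g * b))) F.D F.μ := by
  haveI : BorelSpace (G K) := borelSpaceG756
  obtain ⟨C₁, h₁⟩ := bφ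
  obtain ⟨C₂, h₂⟩ := bψ
  have hc : Continuous (fun g => φ (g * a) * (starRingEnd ℂ) (ψ (g * b))) :=
    (hφ.comp (continuous_mul_const a)).mul
      (Complex.continuous_conj.comp (hψ.comp (continuous_mul_const b)))
  refine Measure.integrableOn_of_bounded F.fin.ne hc.aestronglyMeasurable (M := C₁ * C₂)
    (ae_of_all _ fun g => ?_)
  rw [norm_mul, RCLike.norm_conj]
  exact mul_le_mul (h₁ _) (h₂ _) (norm_nonneg _) ((norm_nonneg _).trans (h₁ 1))

/-- The KEY LEMMA in the form used here: `(a, b) ↦ (h a, h b)` does not change `pairAt756`. -/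
theorem pairAt_transl756 (hT : H429.SubTransl429 K) (hT1 : T1.T1Out K) (F : Frame K)
    {𝔫 : Ideal (𝓞 K)} {φ ψ : G K → ℂ} (hφ : IsCuspFn 𝔫 φ) (hψ : IsCuspFn 𝔫 ψ) (h a b : G K) :
    pairAt756 F φ ψ (h * a) (h * b) = pairAt756 F φ ψ a b := by
  have hc : Continuous (fun g => φ (g * a) * (starRingEnd ℂ) (ψ (g * b))) :=
    (hφ.cont.comp (continuous_mul_const a)).mul
      (Complex.continuous_conj.comp (hψ.cont.comp (continuous_mul_const b)))
  obtain ⟨C₁, h₁⟩ := hφ.bdd
  obtain ⟨C₂, h₂⟩ := hψ.bdd
  have key := hT hT1 F (fun g => φ (g * a) * (starRingEnd ℂ) (ψ (g * b))) hc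
    ⟨C₁ * C₂, fun g => by
      rw [norm_mul, RCLike.norm_conj]
      exact mul_le_mul (h₁ _) (h₂ _) (norm_nonneg _) ((norm_nonneg _).trans (h₁ 1))⟩
    (fun γ g => by
      show φ (T1.ratG K γ * g * a) * (starRingEnd ℂ) (ψ (T1.ratG K γ * g * b)) = _
      rw [mul_assoc, mul_assoc]
      have e1 : φ (T1.ratG K γ * (g * a)) = φ (g * a) := hφ.left_inv γ (g * a)
      have e2 : ψ (T1.ratG K γ * (g * b)) = ψ (g * b) := hψ.left_inv γ (g * b)
      rw [e1, e2])
    (fun z hz g => by
      show φ (g * z * a) * (starRingEnd ℂ) (ψ (g * z * b)) = _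
      have e1 : g * z * a = g * a * z := by
        rw [mul_assoc, ← diagPos_central756 hz a, mul_assoc]
      have e2 : g * z * b = g * b * z := by
        rw [mul_assoc, ← diagPos_central756 hz b, mul_assoc]
      rw [e1, e2, cusp_diagPos756 hφ hz, cusp_diagPos756 hψ hz]) h
  unfold pairAt756
  simp only [mul_assoc] at key ⊢
  exact key

/-! ## 3. The core -/

theorem isLocalMaxCptAt_inv756 {v : HeightOneSpectrum (𝓞 K)} {u : G K}
    (hu : IsLocalMaxCptAt129 v u) : IsLocalMaxCptAt129 v u⁻¹ :=
  ⟨isLocalAtFin_inv129 hu.1, hu.2.2, by rw [inv_inv]; exact hu.2.1⟩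

/-- **`T_v* = S_v⁻¹ T_v`** on the cusp functions of level prime to `v`, from the KEY LEMMA. -/
theorem heckeAdj_core756 (hT : H429.SubTransl429 K) (hT1 : T1.T1Out K) (F : Frame K)
    {𝔫 : Ideal (𝓞 K)} {v : HeightOneSpectrum (𝓞 K)} (hv : ¬ v.asIdeal ∣ 𝔫)
    {H : Finset (G K)} (hH : IsHeckeCosetSystem v H) {z : G K}
    (hz : IsScalarUniformizerAt v z) {φ ψ : G K → ℂ} (hφ : IsCuspFn 𝔫 φ)
    (hψ : IsCuspFn 𝔫 ψ) :
    pair F (heckeSum H φ) ψ = pair F φ (shift z⁻¹ (heckeSum H ψ)) := by
  -- the function `B`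
  have hr : ∀ u : G K, IsLocalMaxCptAt129 v u → ∀ g : G K,
      pairAt756 F φ ψ (g * u) 1 = pairAt756 F φ ψ g 1 := by
    intro u hu g
    unfold pairAt756
    have e : ∀ x : G K, φ (x * (g * u)) = φ (x * g) := fun x => by
      rw [← mul_assoc]
      exact hφ.level_inv u (inLevelGroup_of_localMaxCpt129 hv hu) (x * g)
    simp only [e]
  have hl : ∀ u : G K, IsLocalMaxCptAt129 v u → ∀ g : G K,
      pairAt756 F φ ψ (u * g) 1 = pairAt756 F φ ψ g 1 := by
    intro u hu g
    have h1 : pairAt756 F φ ψ (u * g) 1 = pairAt756 F φ ψ (u * g) (u * u⁻¹) := by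
      rw [mul_inv_cancel]
    rw [h1, pairAt_transl756 hT hT1 F hφ hψ]
    unfold pairAt756
    have e : ∀ x : G K, ψ (x * u⁻¹) = ψ (x * 1) := fun x => by
      rw [mul_one]
      exact hψ.level_inv u⁻¹
        (inLevelGroup_of_localMaxCpt129 hv (isLocalMaxCptAt_inv756 hu)) x
    simp only [e]
  -- the left side
  have hL : pair F (heckeSum H φ) ψ = ∑ h ∈ H, pairAt756 F φ ψ h 1 := by
    unfold pair heckeSum pairAt756
    simp only [Finset.sum_mul, mul_one]
    exact integral_finsetSum H fun h _ => by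
      have : Integrable (fun g => φ (g * h) * (starRingEnd ℂ) (ψ (g * 1)))
          (F.μ.restrict F.D) :=
        integrableOn_pairAt756 F hφ.cont hψ.cont hφ.bdd hψ.bdd h 1
      simpa only [mul_one] using this
  -- the right side
  have hR : pair F φ (shift z⁻¹ (heckeSum H ψ)) = ∑ h ∈ H, pairAt756 F φ ψ 1 (z⁻¹ * h) := by
    unfold pair shift heckeSum pairAt756
    simp only [map_sum, Finset.mul_sum, mul_one, mul_assoc]
    exact integral_finsetSum H fun h _ => by
      have : Integrable (fun g => φ (g * 1) * (starRingEnd ℂ) (ψ (g * (z⁻¹ * h))))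
          (F.μ.restrict F.D) :=
        integrableOn_pairAt756 F hφ.cont hψ.cont hφ.bdd hψ.bdd 1 (z⁻¹ * h)
      simpa only [mul_one] using this
  rw [hL, hR]
  refine Finset.sum_congr rfl fun h hh => ?_
  have h1 : pairAt756 F φ ψ 1 (z⁻¹ * h)
      = pairAt756 F φ ψ ((z⁻¹ * h) * (h⁻¹ * z)) ((z⁻¹ * h) * 1) := by
    have e : (z⁻¹ * h) * (h⁻¹ * z) = 1 := by group
    rw [e, mul_one]
  rw [h1, pairAt_transl756 hT hT1 F hφ hψ]
  exact (biInv_eq756 (fun g => pairAt756 F φ ψ g 1) hl hr (isHeckeAt_of_mem756 hH hh) hz).symm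

/-- **T2.07.04** from the KEY LEMMA T2.07.00. -/
theorem subHeckeAdj_of_transl756 (hT : H429.SubTransl429 K) : H429.SubHeckeAdj429 K :=
  fun _ c F _ hv _ hH _ hz _ _ hφ hψ => heckeAdj_core756 hT c.t1 F hv hH hz hφ hψ

end Fermat.Agent.LT.T2.H756

end
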