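import Fermat.Agent.LT.T2.H429.Transl
import Fermat.Agent.LT.T2.H756.HeckeAdj

/-!
# Row LT, tower T2, sub-leaf T2.07.04 `SubHeckeAdj429` (helper756): CLOSED

OFF-MAIN.  `subHeckeAdj756 : H429.SubHeckeAdj429 K`, unconditional: the conditional form
`subHeckeAdj_of_transl756` (`HeckeAdj.lean`) applied to the KEY LEMMA `H429.subTransl429`
(helper429, `LT/T2/H429/Transl.lean`, byte-identical copy).

Also `heckeAdj756`: the second clause of `T2.OpsAdj` (T2 Spec v3) in the form
`pair F (heckeSum H φ) ψ = pair F φ (shift z⁻¹ (heckeSum H ψ))` for all cusp functions of a level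
prime to `v`, from `T1.T1Out K` alone.
-/

set_option autoImplicit false

open IsDedekindDomain NumberField MeasureTheory
open Fermat.Agent.LT.H556.A0 Fermat.Agent.LT.T2

noncomputable section

namespace Fermat.Agent.LT.T2.H756

variable {K : Type} [Field K] [NumberField K]

attribute [local instance] Fermat.Agent.LT.T2.borelG

/-- **T2.07.04 CLOSED**: `T_v* = S_v⁻¹ T_v` on the cusp functions. -/
theorem subHeckeAdj756 (K : Type) [Field K] [NumberField K] : H429.SubHeckeAdj429 K :=
  subHeckeAdj_of_transl756 (H429.subTransl429 K)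

/-- The explicit adjoint of the Hecke sum, from the output of tower T1 alone (the Hecke clause of
`T2.OpsAdj`). -/
theorem heckeAdj756 (hT1 : T1.T1Out K) (F : Frame K) {𝔫 : Ideal (𝓞 K)}
    {v : HeightOneSpectrum (𝓞 K)} (hv : ¬ v.asIdeal ∣ 𝔫) {H : Finset (G K)}
    (hH : IsHeckeCosetSystem v H) {z : G K} (hz : IsScalarUniformizerAt v z) {φ ψ : G K → ℂ}
    (hφ : IsCuspFn 𝔫 φ) (hψ : IsCuspFn 𝔫 ψ) :
    pair F (heckeSum H φ) ψ = pair F φ (shift z⁻¹ (heckeSum H ψ)) :=
  heckeAdj_core756 (H429.subTransl429 K) hT1 F hv hH hz hφ hψ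

end Fermat.Agent.LT.T2.H756

end
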